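import Mathlib
import Fermat.Agent.S37.Plan2b
import Fermat.Agent.S18.Surj
import Fermat.Agent.S18.WJPlaces
import Fermat.Agent.S18.RRl.WJPlace
import Fermat.Agent.S18.ConstWPlan
import Fermat.Agent.S18.Char0

/-!
# S37 [GR] — good reduction of the two charts of the `j`-line, hypothesis form (helper86)

`Plan2.GoodRed A n`: every element of `F_{n,k}` integral over `k[j̄]` (resp. `k[j̄⁻¹]`) is the
reduction of an element of `F_n ∩ Ocal` integral over `A[j]` (resp. `A[j⁻¹]`).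

No place map is used: the S18 contracts are applied with **base level `1`** (`F_1 = Q̄(j)`).

* generic algebra in `κ((q))`: `exists_forall_mem_WJ` (integral over `κ[j]` ⟹ in `WJ c` for
  large `c`), `exists_forall_pow_mul_mem_WJ` (integral over `κ[j⁻¹]` ⟹ `jᶜ x ∈ WJ c`);
* level one: `exists_poly_level_one` — an element of `L_{F_1}(m (j)_∞) ∩ Ocal` is an
  `A`-polynomial in `j` of degree `≤ m`;
* `isIntegral_of_mem_pullRR` : from `Plan.CharStmt A 1 n`, an element `g` of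
  `pullRR 1 n (c (j)_∞) ∩ Ocal` is integral over `A[j]` and `j⁻ᶜ g` is integral over `A[j⁻¹]`;
* `redSp_pullRR_eq` : `redSp (pullRR 1 n (c (j)_∞)) = WJ k F_{n,k} c` (Riemann's inequality
  `RR0 1 n` against the genus bound `RRl`, as in `S18/Surj.lean`, without a place map);
* `goodRed_of` : `Plan2.GoodRed A n` from `RRl A n`, `RR0 1 n`, `CharStmt A 1 n`, `RedStmt A n`.
-/

set_option autoImplicit false

noncomputable section

namespace Fermat.Agent.S37.GoodRed

open ModularCurve AlgebraicCurve Polynomial IntermediateField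
open Fermat.Agent.S24 Fermat.Agent.S18.Content Fermat.Agent.S18.Plan
open Fermat.Agent.S18

/-! ### Generic algebra in `κ((q))` -/

section Generic

variable {κ : Type} [Field κ] (L : IntermediateField κ (LaurentSeries κ))

/-- `WJ c` is stable under multiplication by constants. -/
theorem algebraMap_mul_mem_WJ (a : κ) {c : ℕ} {y : LaurentSeries κ} (hy : y ∈ WJ κ L c) :
    algebraMap κ (LaurentSeries κ) a * y ∈ WJ κ L c := by
  rw [algebraMap_LS_eq_C, HahnSeries.C_mul_eq_smul]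
  exact (WJ κ L c).smul_mem a hy

/-- A polynomial in `j` of degree `≤ c` lies in `WJ c`. -/
theorem aeval_mem_WJ (hj : jqModC κ ∈ L) (p : κ[X]) {c : ℕ} (hp : p.natDegree ≤ c) :
    aeval (jqModC κ) p ∈ WJ κ L c := by
  rw [aeval_eq_sum_range]
  refine (WJ κ L c).sum_mem fun i hi => ?_
  rw [Algebra.smul_def]
  have hi' : i ≤ p.natDegree := Nat.lt_succ_iff.mp (Finset.mem_range.mp hi)
  exact algebraMap_mul_mem_WJ L _
    (WJCalc.WJ_mono (hi'.trans hp) (WJCalc.j_pow_mem_WJ hj i))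

/-- `p(j⁻¹) jᴹ` is a polynomial in `j` of degree `≤ M` when `deg p ≤ M`. -/
theorem aeval_inv_mul_pow_mem_WJ (hj : jqModC κ ∈ L) (p : κ[X]) {M : ℕ}
    (hp : p.natDegree ≤ M) :
    aeval (jqModC κ)⁻¹ p * jqModC κ ^ M ∈ WJ κ L M := by
  rw [aeval_eq_sum_range, Finset.sum_mul]
  refine (WJ κ L M).sum_mem fun i hi => ?_
  have hi' : i ≤ p.natDegree := Nat.lt_succ_iff.mp (Finset.mem_range.mp hi)
  have hiM : i ≤ M := hi'.trans hp
  have e : (jqModC κ)⁻¹ ^ i * jqModC κ ^ M = jqModC κ ^ (M - i) := by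
    have h1 : jqModC κ ^ M = jqModC κ ^ i * jqModC κ ^ (M - i) := by
      rw [← pow_add, Nat.add_sub_cancel' hiM]
    rw [h1, ← mul_assoc, ← mul_pow, inv_mul_cancel₀ WJCalc.j_ne_zero, one_pow, one_mul]
  rw [Algebra.smul_def, mul_assoc, e]
  exact algebraMap_mul_mem_WJ L _
    (WJCalc.WJ_mono (Nat.sub_le M i) (WJCalc.j_pow_mem_WJ hj _))

/-- An element of `L` integral over `κ[j]` lies in `WJ c` for all large `c`. -/
theorem exists_forall_mem_WJ (hj : jqModC κ ∈ L) {x : LaurentSeries κ} (hx : x ∈ L)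
    (hint : IsIntegral (polyJ κ) x) : ∃ c₁ : ℕ, ∀ c, c₁ ≤ c → x ∈ WJ κ L c := by
  obtain ⟨Q, hQ, hQx⟩ := hint
  have hex : ∀ i : ℕ, ∃ p : κ[X],
      aeval (jqModC κ) p = ((Q.coeff i : polyJ κ) : LaurentSeries κ) := by
    intro i
    have h : ((Q.coeff i : polyJ κ) : LaurentSeries κ)
        ∈ (aeval (R := κ) (jqModC κ)).range := by
      rw [← Algebra.adjoin_singleton_eq_range_aeval]
      exact (Q.coeff i).2
    exact h
  choose p hp using hex
  refine ⟨(Finset.range (Q.natDegree + 1)).sup fun i => (p i).natDegree, fun c hc => ?_⟩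
  refine WJCalc.mem_WJ_of_root hx (Q.map (algebraMap (polyJ κ) (LaurentSeries κ))) (hQ.map _)
    (fun i hi => ?_) ?_
  · rw [hQ.natDegree_map] at hi ⊢
    rw [coeff_map]
    have e : algebraMap (polyJ κ) (LaurentSeries κ) (Q.coeff i) = aeval (jqModC κ) (p i) :=
      (hp i).symm
    rw [e]
    refine aeval_mem_WJ L hj (p i) ?_
    have h1 : (p i).natDegree ≤ c :=
      le_trans (Finset.le_sup (f := fun i => (p i).natDegree)
        (Finset.mem_range.mpr (by omega))) hc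
    have h2 : 1 ≤ Q.natDegree - i := by omega
    calc (p i).natDegree ≤ c := h1
      _ = 1 * c := (one_mul c).symm
      _ ≤ (Q.natDegree - i) * c := Nat.mul_le_mul_right c h2
  · rw [eval_map]
    exact hQx

/-- For `x ∈ L` integral over `κ[j⁻¹]`, `jᶜ x` lies in `WJ c` for all large `c`. -/
theorem exists_forall_pow_mul_mem_WJ (hj : jqModC κ ∈ L) {x : LaurentSeries κ} (hx : x ∈ L)
    (hint : IsIntegral (Plan2.polyJinv κ) x) :
    ∃ c₁ : ℕ, ∀ c, c₁ ≤ c → jqModC κ ^ c * x ∈ WJ κ L c := by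
  obtain ⟨Q, hQ, hQx⟩ := hint
  have hex : ∀ i : ℕ, ∃ p : κ[X],
      aeval (jqModC κ)⁻¹ p = ((Q.coeff i : Plan2.polyJinv κ) : LaurentSeries κ) := by
    intro i
    have h : ((Q.coeff i : Plan2.polyJinv κ) : LaurentSeries κ)
        ∈ (aeval (R := κ) (jqModC κ)⁻¹).range := by
      rw [← Algebra.adjoin_singleton_eq_range_aeval]
      exact (Q.coeff i).2
    exact h
  choose p hp using hex
  refine ⟨(Finset.range (Q.natDegree + 1)).sup fun i => (p i).natDegree, fun c hc => ?_⟩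
  set d := Q.natDegree with hd
  have hlead : aeval (jqModC κ)⁻¹ (p d) = 1 := by
    rw [hp d, hd, hQ.coeff_natDegree]
    rfl
  have h0 : ∑ i ∈ Finset.range d, aeval (jqModC κ)⁻¹ (p i) * x ^ i
      + aeval (jqModC κ)⁻¹ (p d) * x ^ d = 0 := by
    rw [eval₂_eq_sum_range, Finset.sum_range_succ] at hQx
    rw [← hQx]
    congr 1
    · refine Finset.sum_congr rfl fun i _ => ?_
      rw [hp i]
      rfl
    · rw [hp d]
      rfl
  refine WJCalc.mem_WJ_of_relation (d := d) (L.mul_mem (pow_mem hj c) hx)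
    (fun i => aeval (jqModC κ)⁻¹ (p i) * jqModC κ ^ ((d - i) * c)) (fun i hi => ?_) ?_
  · refine aeval_inv_mul_pow_mem_WJ L hj (p i) ?_
    have h1 : (p i).natDegree ≤ c :=
      le_trans (Finset.le_sup (f := fun i => (p i).natDegree)
        (Finset.mem_range.mpr (by omega))) hc
    have h2 : 1 ≤ d - i := by omega
    calc (p i).natDegree ≤ c := h1
      _ = 1 * c := (one_mul c).symm
      _ ≤ (d - i) * c := Nat.mul_le_mul_right c h2
  · have e : (jqModC κ ^ c * x) ^ d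
        + ∑ i ∈ Finset.range d, aeval (jqModC κ)⁻¹ (p i) * jqModC κ ^ ((d - i) * c)
            * (jqModC κ ^ c * x) ^ i
        = jqModC κ ^ (d * c) * (∑ i ∈ Finset.range d, aeval (jqModC κ)⁻¹ (p i) * x ^ i
            + aeval (jqModC κ)⁻¹ (p d) * x ^ d) := by
      rw [hlead, one_mul, mul_add, Finset.mul_sum, add_comm]
      congr 1
      · refine Finset.sum_congr rfl fun i hi => ?_
        have hi' : i ≤ d := (Finset.mem_range.1 hi).le
        have e1 : d * c = (d - i) * c + c * i := by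
          rw [mul_comm c i, ← add_mul, Nat.sub_add_cancel hi']
        rw [mul_pow, ← pow_mul, e1, pow_add]
        ring
      · rw [mul_pow, ← pow_mul, mul_comm c d]
    rw [e, h0, mul_zero]

/-- An element of `κ(j) ∩ WJ m` is a polynomial in `j` of degree `≤ m`. -/
theorem exists_poly_of_mem_adjoin_of_mem_WJ {y : LaurentSeries κ} {m : ℕ}
    (hy : y ∈ IntermediateField.adjoin κ {jqModC κ}) (hW : y ∈ WJ κ L m) :
    ∃ p : κ[X], p.natDegree ≤ m ∧ y = aeval (jqModC κ) p := by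
  obtain ⟨-, h2, h3⟩ := mem_WJ.mp hW
  obtain ⟨f, hf⟩ := ConstWPlan.adjoin_le_fieldRange κ hy
  have h4 : @IsIntegral κ[X] (ConstWPlan.OmJ κ) _ _ _ y :=
    ConstWPlan.isIntegral_poly_of_polyJ κ h2
  have h5 : IsIntegral κ[X] f := by
    have h : @IsIntegral κ[X] (ConstWPlan.OmJ κ) _ _ _
        (algebraMap (RatFunc κ) (ConstWPlan.OmJ κ) f) := by
      rw [ConstWPlan.algebraMap_ratFunc_OmJ]
      have hf' : (ConstWPlan.psi κ) f = y := hf
      rw [hf']
      exact h4
    exact (isIntegral_algebraMap_iff (algebraMap (RatFunc κ) (ConstWPlan.OmJ κ)).injective).mp h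
  obtain ⟨p, hp⟩ := IsIntegrallyClosed.isIntegral_iff.mp h5
  have hy' : y = aeval (jqModC κ) p := by
    have hf' : (ConstWPlan.psi κ) f = y := hf
    rw [← hf', ← hp, ConstWPlan.psi_algebraMap]
  refine ⟨p, ?_, hy'⟩
  by_cases hp0 : p = 0
  · rw [hp0, natDegree_zero]
    exact Nat.zero_le m
  have h6 : IsIntegral (PowerSeries κ) ((jqModC κ)⁻¹ ^ m * y) :=
    ConstWPlan.isIntegralElem_of_forall_exists (algebraMap (PowerSeries κ) (LaurentSeries κ))
      (algebraMap (OinfJ κ) (LaurentSeries κ)) (by rintro ⟨s, -, g, hg⟩; exact ⟨g, hg⟩) h3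
  obtain ⟨g, hg⟩ :=
    (IsIntegrallyClosed.isIntegral_iff (R := PowerSeries κ) (K := LaurentSeries κ)).mp h6
  have h7 : aeval (jqModC κ) p / aeval (jqModC κ) (X ^ m : κ[X])
      ∈ (HahnSeries.ofPowerSeries ℤ κ).range := by
    refine ⟨g, ?_⟩
    have hg' : (HahnSeries.ofPowerSeries ℤ κ) g = (jqModC κ)⁻¹ ^ m * y := hg
    rw [hg', hy', map_pow, aeval_X, inv_pow, div_eq_inv_mul]
  have h8 := RRl.WJPlace.natDegree_le_of_div_mem_range p (X ^ m) hp0 (pow_ne_zero m X_ne_zero) h7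
  rwa [natDegree_X_pow] at h8

/-- Integrality transfers along a ring homomorphism defined on a subring. -/
theorem isIntegral_map_of_subring {Ω Ω' : Type*} [CommRing Ω] [CommRing Ω'] (S R : Subring Ω)
    (R' : Subring Ω') (φ : S →+* Ω') (hRS : R ≤ S) (hφ : ∀ r : S, (r : Ω) ∈ R → φ r ∈ R')
    (g : S) (hg : IsIntegral R (g : Ω)) : IsIntegral R' (φ g) := by
  obtain ⟨p, hp, hpg⟩ := hg
  let ψ : R →+* R' := (φ.comp (Subring.inclusion hRS)).codRestrict R' (fun r => hφ _ r.2)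
  refine ⟨p.map ψ, hp.map ψ, ?_⟩
  rw [eval₂_map]
  have hcomp : (algebraMap R' Ω').comp ψ = φ.comp (Subring.inclusion hRS) := by
    ext r
    rfl
  rw [hcomp, ← hom_eval₂]
  have h0 : p.eval₂ (Subring.inclusion hRS) g = 0 := by
    apply S.subtype_injective
    rw [hom_eval₂, map_zero]
    have hc2 : S.subtype.comp (Subring.inclusion hRS) = algebraMap R Ω := by
      ext r
      rfl
    rw [hc2]
    exact hpg
  rw [h0, map_zero]

/-- A ring homomorphism on a subring maps the closure of a set into a subring as soon as it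
does so on generators. -/
theorem map_mem_of_mem_closure {Ω Ω' : Type*} [CommRing Ω] [CommRing Ω'] (S : Subring Ω)
    (φ : S →+* Ω') (R' : Subring Ω') (G : Set Ω)
    (hG : ∀ x ∈ G, ∃ s : S, (s : Ω) = x ∧ φ s ∈ R') (r : S)
    (hr : (r : Ω) ∈ Subring.closure G) : φ r ∈ R' := by
  have hle : Subring.closure G ≤ (R'.comap φ).map S.subtype := by
    rw [Subring.closure_le]
    intro x hx
    obtain ⟨s, hs, hφ⟩ := hG x hx
    exact Subring.mem_map.mpr ⟨s, hφ, hs⟩
  obtain ⟨t, ht, hte⟩ := hle hr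
  have h : t = r := Subtype.ext hte
  rw [← h]
  exact ht

end Generic

/-! ### `j` and `j⁻¹` in `Ocal` -/

section JO

variable (A : ValuationSubring Kbar)

omit A in
theorem coe_jBar (N : ℕ) [NeZero N] : ((jBar N : FN N) : Om) = jK := by
  show coeffEmb Kbar jq = jqModC Kbar
  rw [coeffEmb, ← jqModC_rat, coeffMap_jqModC]

theorem jK_mem_Ocal : jK ∈ Ocal A := by
  have h := Surj.jBar_mem_Ocal A 1
  rwa [coe_jBar 1] at h

/-- `j` as an element of `Ocal`. -/
def JO : Ocal A := ⟨jK, jK_mem_Ocal A⟩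

theorem red_JO : red A (JO A) = jqModC (kk A) := by
  have h := Surj.red_jBar A 1
  rw [← h]
  exact red_congr A (coe_jBar 1).symm _ _

theorem red_JO_ne_zero : red A (JO A) ≠ 0 := by
  rw [red_JO]
  exact WJCalc.j_ne_zero

/-- `j⁻¹` as an element of `Ocal`. -/
def JiO : Ocal A := ⟨jK⁻¹, inv_mem_Ocal A (JO A) (red_JO_ne_zero A)⟩

theorem red_JiO : red A (JiO A) = (jqModC (kk A))⁻¹ := by
  rw [← red_JO A]
  exact red_inv A (JO A) (red_JO_ne_zero A)

theorem AJ_le_Ocal : Plan2.AJ A ≤ Ocal A := by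
  rw [Plan2.AJ, Subring.closure_le]
  rintro x (⟨a, rfl⟩ | hx)
  · exact C_mem_Ocal A a.2
  · rw [Set.mem_singleton_iff] at hx
    rw [hx]
    exact jK_mem_Ocal A

theorem AJinv_le_Ocal : Plan2.AJinv A ≤ Ocal A := by
  rw [Plan2.AJinv, Subring.closure_le]
  rintro x (⟨a, rfl⟩ | hx)
  · exact C_mem_Ocal A a.2
  · rw [Set.mem_singleton_iff] at hx
    rw [hx]
    exact (JiO A).2

/-- The reduction of an element of `A[j]` lies in `k[j̄]`. -/
theorem red_mem_polyJ (r : Ocal A) (hr : (r : Om) ∈ Plan2.AJ A) :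
    red A r ∈ (polyJ (kk A)).toSubring := by
  refine map_mem_of_mem_closure (Ocal A) (red A) (polyJ (kk A)).toSubring _ ?_ r hr
  rintro x (⟨a, rfl⟩ | hx)
  · refine ⟨constO A a, coe_constO A a, ?_⟩
    rw [red_constO, ← algebraMap_LS_eq_C]
    exact (polyJ (kk A)).algebraMap_mem _
  · rw [Set.mem_singleton_iff] at hx
    refine ⟨JO A, hx.symm, ?_⟩
    rw [red_JO]
    exact WJCalc.j_mem_polyJ

/-- The reduction of an element of `A[j⁻¹]` lies in `O_∞`. -/
theorem red_mem_OinfJ (r : Ocal A) (hr : (r : Om) ∈ Plan2.AJinv A) :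
    red A r ∈ OinfJ (kk A) := by
  refine map_mem_of_mem_closure (Ocal A) (red A) (OinfJ (kk A)) _ ?_ r hr
  rintro x (⟨a, rfl⟩ | hx)
  · refine ⟨constO A a, coe_constO A a, ?_⟩
    rw [red_constO, ← algebraMap_LS_eq_C]
    exact WJPlaces.algebraMap_mem_OinfJ (kk A) _
  · rw [Set.mem_singleton_iff] at hx
    refine ⟨JiO A, hx.symm, ?_⟩
    rw [red_JiO]
    exact WJCalc.inv_j_mem_OinfJ

theorem C_mem_AJ (a : A) : (HahnSeries.C (a : Kbar) : Om) ∈ Plan2.AJ A :=
  Subring.subset_closure (Or.inl ⟨a, rfl⟩)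

theorem jK_mem_AJ : jK ∈ Plan2.AJ A :=
  Subring.subset_closure (Or.inr rfl)

theorem C_mem_AJinv (a : A) : (HahnSeries.C (a : Kbar) : Om) ∈ Plan2.AJinv A :=
  Subring.subset_closure (Or.inl ⟨a, rfl⟩)

theorem inv_jK_mem_AJinv : jK⁻¹ ∈ Plan2.AJinv A :=
  Subring.subset_closure (Or.inr rfl)

/-- An `A`-polynomial in `j` lies in `A[j]`. -/
theorem aeval_mem_AJ (P : A[X]) : aeval jK (P.map A.subtype) ∈ Plan2.AJ A := by
  rw [aeval_eq_sum_range]
  refine (Plan2.AJ A).sum_mem fun i _ => ?_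
  rw [coeff_map, Algebra.smul_def, algebraMap_LS_eq_C]
  exact (Plan2.AJ A).mul_mem (C_mem_AJ A _) ((Plan2.AJ A).pow_mem (jK_mem_AJ A) i)

/-- `j⁻ᴹ P(j) ∈ A[j⁻¹]` for an `A`-polynomial `P` of degree `≤ M`. -/
theorem inv_pow_mul_aeval_mem_AJinv (P : A[X]) {M : ℕ} (hP : P.natDegree ≤ M) :
    jK⁻¹ ^ M * aeval jK (P.map A.subtype) ∈ Plan2.AJinv A := by
  rw [aeval_eq_sum_range, Finset.mul_sum]
  refine (Plan2.AJinv A).sum_mem fun i hi => ?_
  have hi' : i ≤ M :=
    (Nat.lt_succ_iff.mp (Finset.mem_range.mp hi)).trans ((natDegree_map_le).trans hP)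
  rw [coeff_map, Algebra.smul_def, algebraMap_LS_eq_C]
  have e : jK⁻¹ ^ M * (HahnSeries.C (A.subtype (P.coeff i)) * jK ^ i)
      = HahnSeries.C (A.subtype (P.coeff i)) * jK⁻¹ ^ (M - i) := by
    have h1 : jK⁻¹ ^ M = jK⁻¹ ^ (M - i) * jK⁻¹ ^ i := by
      rw [← pow_add, Nat.sub_add_cancel hi']
    have h2 : jK⁻¹ ^ i * jK ^ i = 1 := WJCalc.inv_j_pow_mul_j_pow i
    calc jK⁻¹ ^ M * (HahnSeries.C (A.subtype (P.coeff i)) * jK ^ i)
        = HahnSeries.C (A.subtype (P.coeff i)) * jK⁻¹ ^ (M - i) * (jK⁻¹ ^ i * jK ^ i) := by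
          rw [h1]; ring
      _ = HahnSeries.C (A.subtype (P.coeff i)) * jK⁻¹ ^ (M - i) := by rw [h2, mul_one]
  rw [e]
  exact (Plan2.AJinv A).mul_mem (C_mem_AJinv A _)
    ((Plan2.AJinv A).pow_mem (inv_jK_mem_AJinv A) _)

/-- A polynomial in `j` over `Q̄` lying in `Ocal` has coefficients in `A`. -/
theorem exists_lift_of_aeval_mem_Ocal (p : Kbar[X]) (h : aeval jK p ∈ Ocal A) :
    ∃ P : A[X], P.map A.subtype = p := by
  by_cases hp : p = 0
  · exact ⟨0, by rw [hp, Polynomial.map_zero]⟩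
  obtain ⟨c, Q, -, hQ, hpQ⟩ := exists_primitive A p hp
  have he : ((evalO A (JO A) Q : Ocal A) : Om) = aeval jK (Q.map A.subtype) :=
    coe_evalO A (JO A) Q
  have hred : red A (evalO A (JO A) Q) ≠ 0 := by
    rw [red_evalO, red_JO]
    exact RRl.WJPlace.aeval_jqModC_ne_zero _ hQ
  have h1 : HahnSeries.C c * ((evalO A (JO A) Q : Ocal A) : Om) ∈ Ocal A := by
    have h2 : aeval jK p = HahnSeries.C c * aeval jK (Q.map A.subtype) := by
      rw [hpQ, map_mul, aeval_C, algebraMap_LS_eq_C]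
    rw [he, ← h2]
    exact h
  have hcA : c ∈ A := (C_mul_mem_Ocal_iff A c _ hred).mp h1
  refine ⟨C ⟨c, hcA⟩ * Q, ?_⟩
  rw [Polynomial.map_mul, Polynomial.map_C, hpQ]
  rfl

end JO

/-! ### Level one: `F_1 = Q̄(j)` -/

section LevelOne

set_option synthInstance.maxHeartbeats 400000 in
theorem coe_mem_adjoin_level_one (a : FN 1) :
    (a : Om) ∈ IntermediateField.adjoin Kbar {jqModC Kbar} := by
  have hfr : Module.finrank Kbar⟮jBar 1⟯ (FN 1) = 1 := by
    rw [FibreCount.finrank_eq, dedekindPsi_one]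
  have htop : (⊥ : Subalgebra Kbar⟮jBar 1⟯ (FN 1)) = ⊤ :=
    Subalgebra.bot_eq_top_of_finrank_eq_one hfr
  have ha : a ∈ (⊥ : Subalgebra Kbar⟮jBar 1⟯ (FN 1)) := htop ▸ Algebra.mem_top
  obtain ⟨e, he⟩ := Algebra.mem_bot.mp ha
  rw [← he]
  exact WJPlaces.map_mem_adjoin (ι := (modularFunctionFieldBar 1).val) (x := jBar 1)
    (coe_jBar 1) e

/-- **Level one.** An element of `L_{F_1}(m (j)_∞) ∩ Ocal` is an `A`-polynomial in `j` of degree
`≤ m`. -/
theorem exists_poly_level_one (A : ValuationSubring Kbar) (Cp : Divisor Kbar (FN 1))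
    (hCp : ∀ P, Cp P = max 0 (-(P.ord (jBar 1)))) (m : ℕ) (a : FN 1)
    (ha : a ∈ riemannRochSpace (m • Cp)) (hO : (a : Om) ∈ Ocal A) :
    ∃ P : A[X], P.natDegree ≤ m ∧ (a : Om) = aeval jK (P.map A.subtype) := by
  have := FibreCount.finiteDimensional 1
  have := Char0.isSeparable_jBar 1
  have hW : (a : Om) ∈ WJ Kbar (modularFunctionFieldBar 1) m :=
    WJPlaces.mem_WJ_of_mem_riemannRochSpace (modularFunctionFieldBar 1) (jBar 1) (coe_jBar 1) m
      (m • Cp) (fun v => by rw [Finsupp.smul_apply, hCp, nsmul_eq_mul]) a ha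
  obtain ⟨p, hp, hap⟩ :=
    exists_poly_of_mem_adjoin_of_mem_WJ _ (coe_mem_adjoin_level_one a) hW
  obtain ⟨P, hP⟩ := exists_lift_of_aeval_mem_Ocal A p (hap ▸ hO)
  refine ⟨P, ?_, ?_⟩
  · rw [← hP, natDegree_map_eq_of_injective A.subtype_injective] at hp
    exact hp
  · rw [hP]
    exact hap

end LevelOne

/-! ### Elements of `pullRR 1 n (c (j)_∞) ∩ Ocal` -/

section Main

variable (A : ValuationSubring Kbar) (n : ℕ)

set_option synthInstance.maxHeartbeats 400000 in
set_option maxHeartbeats 1000000 in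
/-- From `CharStmt A 1 n`: an element `g` of `pullRR 1 n (c (j)_∞) ∩ Ocal` is integral over
`A[j]`, and `j⁻ᶜ g` is integral over `A[j⁻¹]`. -/
theorem isIntegral_of_mem_pullRR (hChar : Plan.CharStmt A 1 n) (Cp : Divisor Kbar (FN 1))
    (hCp : ∀ P, Cp P = max 0 (-(P.ord (jBar 1)))) (c : ℕ) (g : Ocal A)
    (hg : (g : Om) ∈ pullRR 1 n (c • Cp)) :
    IsIntegral (Plan2.AJ A) (g : Om) ∧ IsIntegral (Plan2.AJinv A) (jK⁻¹ ^ c * (g : Om)) := by
  obtain ⟨χ, hmon, -, hroot, hcoeff, hO, -⟩ := hChar (c • Cp) g hg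
  set d := χ.natDegree with hd
  have hex : ∀ i, i < d → ∃ P : A[X], P.natDegree ≤ (d - i) * c ∧
      ((χ.coeff i : FN 1) : Om) = aeval jK (P.map A.subtype) := by
    intro i hi
    have h1 := hcoeff (d - i) (Nat.sub_le _ _)
    rw [Nat.sub_sub_self hi.le, smul_smul] at h1
    exact exists_poly_level_one A Cp hCp _ _ h1 (hO i)
  have hrel : (g : Om) ^ d + ∑ i ∈ Finset.range d, ((χ.coeff i : FN 1) : Om) * (g : Om) ^ i
      = 0 := by
    rw [aeval_eq_sum_range, Finset.sum_range_succ, hmon.coeff_natDegree, one_smul] at hroot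
    rw [add_comm]
    exact hroot
  constructor
  · refine WJCalc.isIntegral_of_monic_relation (d := d) (fun i => ((χ.coeff i : FN 1) : Om))
      (fun i hi => ?_) hrel
    obtain ⟨P, -, hP⟩ := hex i hi
    rw [hP]
    exact isIntegral_algebraMap (R := Plan2.AJ A) (x := ⟨_, aeval_mem_AJ A P⟩)
  · refine WJCalc.isIntegral_of_monic_relation (d := d)
      (fun i => jK⁻¹ ^ ((d - i) * c) * ((χ.coeff i : FN 1) : Om)) (fun i hi => ?_) ?_
    · obtain ⟨P, hPd, hP⟩ := hex i hi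
      rw [hP]
      exact isIntegral_algebraMap (R := Plan2.AJinv A)
        (x := ⟨_, inv_pow_mul_aeval_mem_AJinv A P hPd⟩)
    · have e : (jK⁻¹ ^ c * (g : Om)) ^ d
          + ∑ i ∈ Finset.range d, jK⁻¹ ^ ((d - i) * c) * ((χ.coeff i : FN 1) : Om)
              * (jK⁻¹ ^ c * (g : Om)) ^ i
          = jK⁻¹ ^ (d * c) * ((g : Om) ^ d
              + ∑ i ∈ Finset.range d, ((χ.coeff i : FN 1) : Om) * (g : Om) ^ i) := by
        rw [mul_add, Finset.mul_sum]
        congr 1
        · rw [mul_pow, ← pow_mul, mul_comm c d]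
        · refine Finset.sum_congr rfl fun i hi => ?_
          have hi' : i ≤ d := (Finset.mem_range.1 hi).le
          have e1 : d * c = (d - i) * c + c * i := by
            rw [mul_comm c i, ← add_mul, Nat.sub_add_cancel hi']
          rw [mul_pow, ← pow_mul, e1, pow_add]
          ring
      rw [e, hrel, mul_zero]

set_option synthInstance.maxHeartbeats 400000 in
set_option maxHeartbeats 1000000 in
/-- The inclusion `redSp (pullRR 1 n (c (j)_∞)) ⊆ WJ k F_{n,k} c`, without a place map. -/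
theorem redSp_pullRR_le (hChar : Plan.CharStmt A 1 n) (hRed : Plan.RedStmt A n)
    (Cp : Divisor Kbar (FN 1)) (hCp : ∀ P, Cp P = max 0 (-(P.ord (jBar 1)))) (c : ℕ) :
    redSp A (pullRR 1 n (c • Cp)) ≤ WJ (kk A) (Fk A n) c := by
  rintro x ⟨g, hg, rfl⟩
  obtain ⟨h1, h2⟩ := isIntegral_of_mem_pullRR A n hChar Cp hCp c g hg
  refine ⟨hRed.2.1 g hg.1, ?_, ?_⟩
  · exact isIntegral_map_of_subring (Ocal A) (Plan2.AJ A) (polyJ (kk A)).toSubring (red A)
      (AJ_le_Ocal A) (red_mem_polyJ A) g h1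
  · have h3 := isIntegral_map_of_subring (Ocal A) (Plan2.AJinv A) (OinfJ (kk A)) (red A)
      (AJinv_le_Ocal A) (red_mem_OinfJ A) (JiO A ^ c * g) h2
    rw [map_mul, map_pow, red_JiO] at h3
    exact h3

set_option synthInstance.maxHeartbeats 400000 in
set_option maxHeartbeats 1000000 in
/-- `(Surj)` at base level one: Riemann's inequality in characteristic zero against the genus
bound in characteristic `ℓ` (the argument of `S18/Surj.lean`, without a place map). -/
theorem redSp_pullRR_eq (hChar : Plan.CharStmt A 1 n) (hRed : Plan.RedStmt A n)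
    (hRR0 : Plan.RR0 1 n) (Cp : Divisor Kbar (FN 1))
    (hCp : ∀ P, Cp P = max 0 (-(P.ord (jBar 1)))) (hdegCp : Divisor.degree Cp = 1) (c : ℕ)
    (hfin : Module.Finite (kk A) (WJ (kk A) (Fk A n) c))
    (hbound : 12 * (Module.finrank (kk A) (WJ (kk A) (Fk A n) c) : ℤ)
      ≤ 12 * (c : ℤ) * (dedekindPsi n : ℤ) - (dedekindPsi n : ℤ) + 6 * (cuspCount n : ℤ)) :
    redSp A (pullRR 1 n (c • Cp)) = WJ (kk A) (Fk A n) c := by
  obtain ⟨hfinV, hrr⟩ := hRR0 (c • Cp)
  have hle1 := redSp_pullRR_le A n hChar hRed Cp hCp c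
  obtain ⟨r, b, hspan, hli⟩ := hRed.2.2.2.1 (pullRR 1 n (c • Cp)) (fun w hw => hw.1) hfinV
  have h1 : Module.finrank Kbar (pullRR 1 n (c • Cp)) ≤ r := by
    have h := finrank_range_le_card (R := Kbar) (fun i => ((b i : Ocal A) : Om))
    rw [Set.finrank, hspan, Fintype.card_fin] at h
    exact h
  have hfinR : Module.Finite (kk A) (redSp A (pullRR 1 n (c • Cp))) :=
    Submodule.finiteDimensional_of_le hle1
  have hmem : ∀ i, red A (b i) ∈ redSp A (pullRR 1 n (c • Cp)) := fun i =>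
    ⟨b i, by rw [← hspan]; exact Submodule.subset_span ⟨i, rfl⟩, rfl⟩
  have hli' : LinearIndependent (kk A)
      (fun i => (⟨red A (b i), hmem i⟩ : redSp A (pullRR 1 n (c • Cp)))) :=
    LinearIndependent.of_comp (redSp A (pullRR 1 n (c • Cp))).subtype hli
  have h2 : r ≤ Module.finrank (kk A) (redSp A (pullRR 1 n (c • Cp))) := by
    have := hli'.fintype_card_le_finrank
    rwa [Fintype.card_fin] at this
  have hdeg : Divisor.degree (c • Cp) = (c : ℤ) := by
    rw [map_nsmul, hdegCp, nsmul_eq_mul, mul_one]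
  rw [hdeg, dedekindPsi_one] at hrr
  have hkey : Module.finrank (kk A) (WJ (kk A) (Fk A n) c)
      ≤ Module.finrank Kbar (pullRR 1 n (c • Cp)) := by
    have : (Module.finrank (kk A) (WJ (kk A) (Fk A n) c) : ℤ)
        ≤ (Module.finrank Kbar (pullRR 1 n (c • Cp)) : ℤ) := by
      push_cast at hrr
      linarith
    exact_mod_cast this
  refine Submodule.eq_of_le_of_finrank_le hle1 ?_
  exact hkey.trans (h1.trans h2)

set_option synthInstance.maxHeartbeats 400000 in
set_option maxHeartbeats 1000000 in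
/-- **[GR], hypothesis form.** -/
theorem goodRed_of [NeZero n] (hRRl : Plan.RRl A n) (hRR0 : Plan.RR0 1 n)
    (hChar : Plan.CharStmt A 1 n) (hRed : Plan.RedStmt A n) : Plan2.GoodRed A n := by
  obtain ⟨Cp, hCp, hdegCp⟩ := (Char0.char0Stmt 1).2.2
  rw [dedekindPsi_one, Nat.cast_one] at hdegCp
  obtain ⟨c₀, hc₀⟩ := hRRl
  have hj : jqModC (kk A) ∈ Fk A n := jqModC_mem_full (kk A) n
  constructor
  · intro x hx hint
    obtain ⟨c₁, hc₁⟩ := exists_forall_mem_WJ (Fk A n) hj hx hint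
    set c := max c₀ c₁ with hc
    obtain ⟨hfin, hbound⟩ := hc₀ c (le_max_left _ _)
    have hxW : x ∈ WJ (kk A) (Fk A n) c := hc₁ c (le_max_right _ _)
    rw [← redSp_pullRR_eq A n hChar hRed hRR0 Cp hCp hdegCp c hfin hbound] at hxW
    obtain ⟨g, hg, rfl⟩ := hxW
    exact ⟨g, hg.1, (isIntegral_of_mem_pullRR A n hChar Cp hCp c g hg).1, rfl⟩
  · intro x hx hint
    obtain ⟨c₁, hc₁⟩ := exists_forall_pow_mul_mem_WJ (Fk A n) hj hx hint
    set c := max c₀ c₁ with hc
    obtain ⟨hfin, hbound⟩ := hc₀ c (le_max_left _ _)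
    have hxW : jqModC (kk A) ^ c * x ∈ WJ (kk A) (Fk A n) c := hc₁ c (le_max_right _ _)
    rw [← redSp_pullRR_eq A n hChar hRed hRR0 Cp hCp hdegCp c hfin hbound] at hxW
    obtain ⟨g, hg, hgx⟩ := hxW
    refine ⟨JiO A ^ c * g, ?_, (isIntegral_of_mem_pullRR A n hChar Cp hCp c g hg).2, ?_⟩
    · have hjn : jK⁻¹ ∈ modularFunctionFieldBar n := by
        have h := (jBar n).2
        rw [coe_jBar n] at h
        exact inv_mem h
      exact mul_mem (pow_mem hjn c) hg.1
    · rw [map_mul, map_pow, red_JiO, hgx]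
      exact WJCalc.inv_j_pow_mul_j_pow_mul c x

end Main

end Fermat.Agent.S37.GoodRed

end
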